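/-
S55 / layer G / block REC / adapter TOW, leaf FR-REC, unramified half (helper724).

`invAt_eq_zero_of_ord` : for a Tower level `M` of `S`, a subgroup `H ≤ Gal(M/ℚ)`, a prime
`q ∉ S` and ANY place of `K = M^H` above `q` (given by `g ∈ G_ℚ`), the local invariant of the
inflation of a finite-level class `x ∈ H²(H, Mˣ)` with trivial divisor class
(`ord_* x = 0` in `H²(H, Div^S M)`) vanishes.

Proof: `ord ∘ x = dβ`; let `w` be the prime of `M` induced by `ι_q ∘ g⁻¹`, `ϖ ∈ Mˣ` a uniformizer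
at `w` and `b(h) = ϖ ^ β(h)(w)`.  The cocycle `x' = x - db` is cohomologous to `x` and has
`w`-unit values on `D_w × H`.  Its inflation, localised at `(q, g)`, is a unit-valued cocycle which
is constant modulo inertia (inertia at `q ∉ S` acts trivially on `M`): `I.inv_unram`.

This file is independent of the definition of `σ` (FR-DEF): it only uses `Rec/Defs`, `Rec/Spec`
and the Tower vocabulary.
-/
import Fermat.Agent.S55.G.Rec.Tow.Spec
import Fermat.Agent.S55.G.Rec.SupportFiniteH181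
import Fermat.Agent.S55.GAD.SUnitH175
import Fermat.Agent.S55.Bridge.RestrictInertia

set_option autoImplicit false
set_option linter.unusedSectionVars false
set_option linter.style.haveILetI false

open CategoryTheory groupCohomology
open scoped NumberField

noncomputable section

namespace Fermat.Agent.S55.G.Rec.TOW.H724

open Fermat.Agent.S55 Fermat.Agent.S55.Tow Fermat.Agent.S55.E1.H594 Fermat.Agent.S55.G.Rec
open IsDedekindDomain

/-! ## A. Inertia -/

section Inertia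

variable (q : ℕ) [Fact q.Prime]

lemma mem_nonunits_padicIntegers_iff {y : PadicAlgCl q} :
    y ∈ (padicIntegers q).nonunits ↔ ‖y‖ < 1 := by
  rw [ValuationSubring.mem_nonunits_iff_or]
  by_cases hy : y = 0
  · subst hy
    simp
  · have hpos : 0 < ‖y‖ := norm_pos_iff.2 hy
    have hmem : y⁻¹ ∈ padicIntegers q ↔ ‖y⁻¹‖ ≤ 1 := by
      rw [mem_padicIntegers_iff]
      exact Iff.rfl
    rw [hmem, norm_inv]
    constructor
    · rintro (h | h)
      · exact absurd h hy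
      · by_contra hlt
        exact h (inv_le_one_of_one_le₀ (not_lt.1 hlt))
    · intro h
      right
      intro h'
      have := (inv_le_one₀ hpos).1 h'
      exact absurd h (not_lt.2 this)

lemma norm_natCast_self_lt_one : ‖((q : ℕ) : PadicAlgCl q)‖ < 1 := by
  have h2 : ‖padicEmbedding q ((q : ℕ) : Qbar)‖ = (q : ℝ)⁻¹ :=
    Fermat.Agent.S55.H175.norm_padicEmbedding_natCast_self q
  rw [map_natCast] at h2
  rw [h2]
  exact inv_lt_one_of_one_lt₀ (by exact_mod_cast (Fact.out : q.Prime).one_lt)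

lemma liesOver_padicIntegers : (padicIntegers q).LiesOverPrime q := by
  show ((q : ℕ) : PadicAlgCl q) ∈ (padicIntegers q).nonunits
  rw [mem_nonunits_padicIntegers_iff]
  exact norm_natCast_self_lt_one q

lemma mem_nonunits_padicPlace_iff {x : Qbar} :
    x ∈ (padicPlace q).nonunits ↔ ‖padicEmbedding q x‖ < 1 := by
  rw [← mem_nonunits_padicIntegers_iff]
  rw [ValuationSubring.mem_nonunits_iff_or, ValuationSubring.mem_nonunits_iff_or]
  have h1 : padicEmbedding q x = 0 ↔ x = 0 := map_eq_zero_iff _ (padicEmbedding q).injective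
  have h2 : x⁻¹ ∈ padicPlace q ↔ (padicEmbedding q x)⁻¹ ∈ padicIntegers q := by
    rw [← map_inv₀]
    exact Iff.rfl
  rw [h1, h2]

lemma liesOver_padicPlace : (padicPlace q).LiesOverPrime q := by
  show ((q : ℕ) : Qbar) ∈ (padicPlace q).nonunits
  rw [mem_nonunits_padicPlace_iff, map_natCast]
  exact norm_natCast_self_lt_one q

/-- An inertial element of `G_{ℚ_q}` (norm form) maps into the inertia group of `padicPlace q`. -/
lemma loc_mem_inertia {τ : PadicAlgCl q ≃ₐ[ℚ_[q]] PadicAlgCl q} (hτ : IsInertial q τ) :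
    localGaloisToGlobal q τ ∈ (padicPlace q).inertiaSubgroupIn ℚ := by
  refine Bridge.mem_inertia_of_forall_integral (padicPlace q) (Fact.out : q.Prime)
    (liesOver_padicPlace q)
    (localGaloisToGlobal_mem_decompositionSubgroup q τ) (fun b hb => ?_)
  rw [mem_nonunits_padicPlace_iff, map_sub, padicEmbedding_localGaloisToGlobal]
  exact hτ _ (H181.norm_padicEmbedding_le_one q hb)

variable {S : Finset Nat.Primes} (M : Level S)

/-- Inertia at `q ∉ S` acts trivially on a level of `S`. -/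
lemma conj_loc_mem_U (hq : (⟨q, Fact.out⟩ : Nat.Primes) ∉ S) (g : GQ)
    {τ : PadicAlgCl q ≃ₐ[ℚ_[q]] PadicAlgCl q} (hτ : IsInertial q τ) :
    g * localGaloisToGlobal q τ * g⁻¹ ∈ M.U := by
  have h1 : localGaloisToGlobal q τ ∈ M.U :=
    M.unram.2 ⟨q, Fact.out⟩ hq (padicPlace q) (liesOver_padicPlace q)
      (loc_mem_inertia q hτ)
  exact M.normalU.conj_mem _ h1 g

end Inertia

/-! ## B. The prime of `M` induced by `ι_q ∘ g⁻¹` -/

section Place

variable (q : ℕ) [Fact q.Prime] (g : GQ) {S : Finset Nat.Primes} (M : Level S)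

/-- The embedding `M → ℚ̄_q`, `y ↦ ι_q (g⁻¹ y)`. -/
def embG : M.F →+* PadicAlgCl q :=
  ((padicEmbedding q : Qbar →ₐ[ℚ] PadicAlgCl q) : Qbar →+* PadicAlgCl q).comp
    ((((g⁻¹ : GQ) : Qbar ≃ₐ[ℚ] Qbar) : Qbar →+* Qbar).comp (algebraMap M.F Qbar))

lemma embG_apply (y : M.F) : embG q g M y = padicEmbedding q ((g⁻¹ : GQ) (y : Qbar)) := rfl

lemma embG_smul (τ : PadicAlgCl q ≃ₐ[ℚ_[q]] PadicAlgCl q) (y : M.F) :
    embG q g M ((QuotientGroup.mk (g * localGaloisToGlobal q τ * g⁻¹) : M.Gal) • y) =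
      τ (embG q g M y) := by
  rw [embG_apply, level_mk_smul, embG_apply, ← padicEmbedding_localGaloisToGlobal]
  congr 1
  simp [AlgEquiv.mul_apply]

lemma norm_algEquiv (τ : PadicAlgCl q ≃ₐ[ℚ_[q]] PadicAlgCl q) (y : PadicAlgCl q) :
    ‖τ y‖ = ‖y‖ := by
  have h := nnnorm_padicAlgCl_algEquiv q τ y
  exact congrArg NNReal.toReal h

/-- The prime of `𝓞_M` induced by `ι_q ∘ g⁻¹`. -/
def placeW : HeightOneSpectrum (𝓞 M.F) :=
  letI : Algebra M.F (PadicAlgCl q) := (embG q g M).toAlgebra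
  GAD.H175.placeUnder (K := M.F) (padicIntegers q) q Fact.out (liesOver_padicIntegers q)

lemma mem_placeW_iff (b : 𝓞 M.F) :
    b ∈ (placeW q g M).asIdeal ↔ ‖embG q g M (b : M.F)‖ < 1 := by
  letI : Algebra M.F (PadicAlgCl q) := (embG q g M).toAlgebra
  rw [← mem_nonunits_padicIntegers_iff]
  exact GAD.H175.mem_placeUnder

lemma valuation_placeW_eq_one {y : M.F} (hy : y ≠ 0)
    (h : (placeW q g M).valuation M.F y = 1) : ‖embG q g M y‖ = 1 := by
  letI : Algebra M.F (PadicAlgCl q) := (embG q g M).toAlgebra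
  have hw : ∀ b : 𝓞 M.F, b ∈ (placeW q g M).asIdeal ↔
      algebraMap M.F (PadicAlgCl q) (b : M.F) ∈ (padicIntegers q).nonunits :=
    fun b => GAD.H175.mem_placeUnder
  obtain ⟨h1, h2⟩ :=
    (GAD.H175.valuation_eq_one_iff_mem_and_inv_mem (padicIntegers q) (placeW q g M) hw hy).1 h
  have h1' : ‖embG q g M y‖ ≤ 1 := h1
  have h2' : ‖(embG q g M y)⁻¹‖ ≤ 1 := h2
  rw [norm_inv] at h2'
  have hpos : 0 < ‖embG q g M y‖ :=
    norm_pos_iff.2 ((map_ne_zero_iff _ (embG q g M).injective).2 hy)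
  exact le_antisymm h1' ((inv_le_one₀ hpos).1 h2')

lemma not_isAbove_placeW (hq : (⟨q, Fact.out⟩ : Nat.Primes) ∉ S) :
    ¬ G.IsAbove S M.F (placeW q g M) := by
  letI : Algebra M.F (PadicAlgCl q) := (embG q g M).toAlgebra
  rintro ⟨ℓ, hℓS, hℓ⟩
  have hw : ∀ b : 𝓞 M.F, b ∈ (placeW q g M).asIdeal ↔
      algebraMap M.F (PadicAlgCl q) (b : M.F) ∈ (padicIntegers q).nonunits :=
    fun b => GAD.H175.mem_placeUnder
  have := GAD.H175.eq_of_natCast_mem (padicIntegers q) (placeW q g M) hw (Fact.out : q.Prime) ℓ.2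
    (liesOver_padicIntegers q) hℓ
  apply hq
  have h3 : ℓ = ⟨q, Fact.out⟩ := Subtype.ext this
  rw [← h3]
  exact hℓS

/-- The prime `placeW`, as a prime outside `S`. -/
def placeOut (hq : (⟨q, Fact.out⟩ : Nat.Primes) ∉ S) : G.PrimeOut S M.F :=
  ⟨placeW q g M, not_isAbove_placeW q g M hq⟩

/-- The elements `g · loc(τ) · g⁻¹` fix the prime `placeW`. -/
lemma primeSMul_placeW (τ : PadicAlgCl q ≃ₐ[ℚ_[q]] PadicAlgCl q) :
    G.primeSMul M.Gal (QuotientGroup.mk (g * localGaloisToGlobal q τ * g⁻¹) : M.Gal)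
      (placeW q g M) = placeW q g M := by
  apply HeightOneSpectrum.ext
  ext b
  rw [G.mem_primeSMul_iff, mem_placeW_iff, mem_placeW_iff]
  have hinv : ((QuotientGroup.mk (g * localGaloisToGlobal q τ * g⁻¹) : M.Gal))⁻¹ =
      QuotientGroup.mk (g * localGaloisToGlobal q τ⁻¹ * g⁻¹) := by
    rw [← QuotientGroup.mk_inv, map_inv, mul_inv_rev, mul_inv_rev, inv_inv, mul_assoc]
  have hcoe : (((QuotientGroup.mk (g * localGaloisToGlobal q τ * g⁻¹) : M.Gal)⁻¹ • b : 𝓞 M.F) :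
      M.F) = (QuotientGroup.mk (g * localGaloisToGlobal q τ * g⁻¹) : M.Gal)⁻¹ • (b : M.F) := rfl
  rw [hcoe, hinv, embG_smul, norm_algEquiv]

end Place

/-! ## C. Inflation of finite-level cochains -/

section Infl

variable {S : Finset Nat.Primes} (M : Level S) (H : Subgroup M.Gal)

/-- The preimage of `H ≤ Gal(M/ℚ)` in `G_ℚ`: the absolute Galois group of `K = M^H`. -/
abbrev UH : Subgroup GQ := H.comap (QuotientGroup.mk' M.U)

/-- The projection `U_H → H`. -/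
def toH : ↥(UH M H) →* ↥H := (QuotientGroup.mk' M.U).subgroupComap H

@[simp] lemma toH_coe (s : ↥(UH M H)) :
    ((toH M H s : ↥H) : M.Gal) = QuotientGroup.mk (s : GQ) := rfl

lemma toH_eq_one {s : ↥(UH M H)} (hs : (s : GQ) ∈ M.U) : toH M H s = 1 := by
  apply Subtype.ext
  rw [toH_coe]
  exact (QuotientGroup.eq_one_iff _).2 hs

lemma toH_surjective : Function.Surjective (toH M H) := by
  rintro ⟨h, hh⟩
  obtain ⟨s, rfl⟩ := QuotientGroup.mk_surjective h
  exact ⟨⟨s, hh⟩, rfl⟩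

lemma isOpenQ_UH : IsOpenQ (UH M H) :=
  ⟨M.F, level_finiteDimensional M, fun σ hσ => by
    have h1 : (QuotientGroup.mk σ : M.Gal) = 1 :=
      (QuotientGroup.eq_one_iff σ).2 (show σ ∈ M.U from hσ)
    show (QuotientGroup.mk σ : M.Gal) ∈ H
    rw [h1]
    exact H.one_mem⟩

/-- The inclusion `Mˣ → ℚ̄ˣ` (additively), as a `ℤ`-linear map of the underlying modules. -/
def incl : (T.resSub (lvlL M) H) →ₗ[ℤ] gModOn (UH M H) :=
  (MonoidHom.toAdditive
    (Units.map ((algebraMap M.F Qbar : M.F →+* Qbar) : M.F →* Qbar))).toIntLinearMap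

lemma incl_coe (a : T.resSub (lvlL M) H) :
    ((Additive.toMul (incl M H a) : Qbarˣ) : Qbar) =
      (((Additive.toMul (show Additive (M.F)ˣ from a) : (M.F)ˣ) : M.F) : Qbar) := rfl

lemma incl_equivariant (s : ↥(UH M H)) (a : T.resSub (lvlL M) H) :
    incl M H ((T.resSub (lvlL M) H).ρ (toH M H s) a) = (gModOn (UH M H)).ρ s (incl M H a) := by
  apply Additive.toMul.injective
  apply Units.ext
  exact level_mk_smul M (s : GQ) _

/-- Inflation of `1`-cochains. -/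
abbrev inflC₁ : (↥H → T.resSub (lvlL M) H) →ₗ[ℤ] (↥(UH M H) → gModOn (UH M H)) :=
  cochainsPullPush₁ (toH M H) (incl M H)

/-- Inflation of `2`-cochains. -/
abbrev inflC₂ : (↥H × ↥H → T.resSub (lvlL M) H) →ₗ[ℤ]
    (↥(UH M H) × ↥(UH M H) → gModOn (UH M H)) :=
  cochainsPullPush₂ (toH M H) (incl M H)

lemma inflC₂_mul_right (x : ↥H × ↥H → T.resSub (lvlL M) H) (a a' s s' : ↥(UH M H))
    (hs : (s : GQ) ∈ M.U) (hs' : (s' : GQ) ∈ M.U) :
    inflC₂ M H x (a * s, a' * s') = inflC₂ M H x (a, a') := by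
  show incl M H (x (toH M H (a * s), toH M H (a' * s'))) = incl M H (x (toH M H a, toH M H a'))
  rw [map_mul, map_mul, toH_eq_one M H hs, toH_eq_one M H hs', mul_one, mul_one]

lemma isLevelConstant₂_inflC₂ (x : ↥H × ↥H → T.resSub (lvlL M) H) :
    IsLevelConstant₂ (UH M H).subtype (inflC₂ M H x) :=
  ⟨M.F, level_finiteDimensional M, fun a a' s s' hs hs' => inflC₂_mul_right M H x a a' s s' hs hs'⟩

lemma isLevelConstant₁_inflC₁ (b : ↥H → T.resSub (lvlL M) H) :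
    IsLevelConstant₁ (UH M H).subtype (inflC₁ M H b) :=
  ⟨M.F, level_finiteDimensional M, fun a s hs => by
    show incl M H (b (toH M H (a * s))) = incl M H (b (toH M H a))
    rw [map_mul, toH_eq_one M H hs, mul_one]⟩

lemma inflC₂_mem_levelCocycles₂ {x : ↥H × ↥H → T.resSub (lvlL M) H}
    (hx : x ∈ cocycles₂ (T.resSub (lvlL M) H)) :
    inflC₂ M H x ∈ levelCocycles₂ (UH M H).subtype (gModOn (UH M H)) :=
  ⟨cochainsPullPush₂_mem_cocycles₂ (toH M H) (incl M H) (incl_equivariant M H) hx,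
    isLevelConstant₂_inflC₂ M H x⟩

lemma inflC₂_d₁₂ (b : ↥H → T.resSub (lvlL M) H) :
    inflC₂ M H ((d₁₂ (T.resSub (lvlL M) H)).hom b) =
      (d₁₂ (gModOn (UH M H))).hom (inflC₁ M H b) :=
  cochainsPullPush₂_d₁₂ (toH M H) (incl M H) (incl_equivariant M H) b

/-- The canonical inflation on cocycles. -/
def inflZ₂ : ↥(cocycles₂ (T.resSub (lvlL M) H)) →ₗ[ℤ]
    ↥(levelCocycles₂ (UH M H).subtype (gModOn (UH M H))) :=
  (inflC₂ M H).restrict fun _ hx => inflC₂_mem_levelCocycles₂ M H hx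

@[simp] lemma inflZ₂_coe (x : ↥(cocycles₂ (T.resSub (lvlL M) H))) :
    (inflZ₂ M H x : ↥(UH M H) × ↥(UH M H) → gModOn (UH M H)) = inflC₂ M H x := rfl

end Infl

/-! ## D. The unramified vanishing -/

section Main

variable {S : Finset Nat.Primes} (M : Level S) (H : Subgroup M.Gal)

lemma exists_cochain_of_ord_eq_zero (x : ↥(cocycles₂ (T.resSub (lvlL M) H)))
    (hx : h2Sub (G.ordRepHom S M.Gal M.F) H (H2π _ x) = 0) :
    ∃ β : ↥H → (G.PrimeOut S M.F →₀ ℤ), ∀ h₁ h₂ : ↥H,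
      G.ordHom S M.F ((x : ↥H × ↥H → T.resSub (lvlL M) H) (h₁, h₂)) =
        G.divRepr S M.Gal M.F (h₁ : M.Gal) (β h₂) - β (h₁ * h₂) + β h₁ := by
  have h1 := ConcreteCategory.congr_hom (H2π_comp_map (MonoidHom.id ↥H)
    ((Rep.resFunctor H.subtype).map (G.ordRepHom S M.Gal M.F))) x
  have h2 : H2π _ (mapCocycles₂ (MonoidHom.id ↥H)
    ((Rep.resFunctor H.subtype).map (G.ordRepHom S M.Gal M.F)) x) = 0 := by
    rw [← hx]
    exact h1.symm
  rw [H2π_eq_zero_iff] at h2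
  obtain ⟨β, hβ⟩ := h2
  refine ⟨β, fun h₁ h₂ => ?_⟩
  have h3 := congrFun hβ (h₁, h₂)
  rw [d₁₂_hom_apply] at h3
  exact h3.symm


lemma exists_ordAt_eq_one (w : HeightOneSpectrum (𝓞 M.F)) :
    ∃ ϖ : Additive (M.F)ˣ, G.ordAt w ϖ = 1 := by
  obtain ⟨π, hπ⟩ := w.valuation_exists_uniformizer M.F
  have hπ0 : π ≠ 0 := by
    rintro rfl
    rw [map_zero] at hπ
    exact WithZero.exp_ne_zero hπ.symm
  refine ⟨Additive.ofMul (Units.mk0 π hπ0), ?_⟩
  rw [G.ordAt_apply]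
  show - WithZero.log (w.valuation M.F π) = 1
  rw [hπ, WithZero.log_exp, neg_neg]

lemma ordAt_sub_d₁₂ (x : ↥H × ↥H → T.resSub (lvlL M) H) (β : ↥H → (G.PrimeOut S M.F →₀ ℤ))
    (hβ : ∀ h₁ h₂ : ↥H, G.ordHom S M.F (x (h₁, h₂)) =
        G.divRepr S M.Gal M.F (h₁ : M.Gal) (β h₂) - β (h₁ * h₂) + β h₁)
    (w : G.PrimeOut S M.F) (b₀ : ↥H → T.resSub (lvlL M) H)
    (hb : ∀ h : ↥H, G.ordAt w.1 (b₀ h) = β h w)
    (h₁ h₂ : ↥H) (hfix : G.primeSMul M.Gal (h₁ : M.Gal) w.1 = w.1) :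
    G.ordAt w.1 ((x - (d₁₂ (T.resSub (lvlL M) H)).hom b₀) (h₁, h₂)) = 0 := by
  have hfix' : G.primeOutMap S M.Gal M.F (h₁ : M.Gal) w = w := Subtype.ext hfix
  have e0 : G.divRepr S M.Gal M.F (h₁ : M.Gal) (β h₂) w = β h₂ w := by
    have h := G.divRepr_apply_apply S M.Gal M.F (h₁ : M.Gal) (β h₂) w
    rw [hfix'] at h
    exact h
  have e1 : G.ordAt w.1 (x (h₁, h₂)) = β h₂ w - β (h₁ * h₂) w + β h₁ w := by
    have h := DFunLike.congr_fun (hβ h₁ h₂) w
    refine h.trans ?_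
    rw [Finsupp.add_apply, Finsupp.sub_apply, e0]
  have e2 : G.ordAt w.1 ((T.resSub (lvlL M) H).ρ h₁ (b₀ h₂)) = β h₂ w := by
    have h := G.ordAt_primeSMul M.Gal (h₁ : M.Gal) w.1 (b₀ h₂)
    rw [hfix] at h
    exact h.trans (hb h₂)
  have e3 : (x - (d₁₂ (T.resSub (lvlL M) H)).hom b₀) (h₁, h₂) =
      x (h₁, h₂) - ((T.resSub (lvlL M) H).ρ h₁ (b₀ h₂) - b₀ (h₁ * h₂) + b₀ h₁) := by
    rw [Pi.sub_apply, d₁₂_hom_apply]
  rw [e3]
  have e4 := map_sub (G.ordAt w.1) (x (h₁, h₂))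
    ((T.resSub (lvlL M) H).ρ h₁ (b₀ h₂) - b₀ (h₁ * h₂) + b₀ h₁)
  have e5 := map_add (G.ordAt w.1) ((T.resSub (lvlL M) H).ρ h₁ (b₀ h₂) - b₀ (h₁ * h₂)) (b₀ h₁)
  have e6 := map_sub (G.ordAt w.1) ((T.resSub (lvlL M) H).ρ h₁ (b₀ h₂)) (b₀ (h₁ * h₂))
  have e7 := hb (h₁ * h₂)
  have e8 := hb h₁
  refine e4.trans ?_
  rw [e5, e6]
  exact (congrArg₂ (fun a b : ℤ => a - b) e1 (congrArg₂ (fun a b : ℤ => a + b)
    (congrArg₂ (fun a b : ℤ => a - b) e2 e7) e8)).trans (sub_self _)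

/-- Modifying a finite-level cocycle by a coboundary does not change the class of its
inflation. -/
lemma exists_inflC₂_sub_d₁₂ (x : ↥(cocycles₂ (T.resSub (lvlL M) H)))
    (b₀ : ↥H → T.resSub (lvlL M) H)
    (c : ↥(levelCocycles₂ (UH M H).subtype (gModOn (UH M H))))
    (hc : (c : ↥(UH M H) × ↥(UH M H) → gModOn (UH M H)) = inflC₂ M H x) :
    ∃ c' : ↥(levelCocycles₂ (UH M H).subtype (gModOn (UH M H))),
      (c' : ↥(UH M H) × ↥(UH M H) → gModOn (UH M H)) =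
        inflC₂ M H ((x : ↥H × ↥H → T.resSub (lvlL M) H) - (d₁₂ (T.resSub (lvlL M) H)).hom b₀) ∧
      continuousH2π (UH M H).subtype (gModOn (UH M H)) c =
        continuousH2π (UH M H).subtype (gModOn (UH M H)) c' := by
  have hx' : (x : ↥H × ↥H → T.resSub (lvlL M) H) - (d₁₂ (T.resSub (lvlL M) H)).hom b₀ ∈
      cocycles₂ (T.resSub (lvlL M) H) :=
    Submodule.sub_mem _ x.2 (coboundaries₂_le_cocycles₂ _ ⟨b₀, rfl⟩)
  refine ⟨⟨_, inflC₂_mem_levelCocycles₂ M H hx'⟩, rfl, ?_⟩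
  rw [← sub_eq_zero, ← map_sub, continuousH2π_eq_zero_iff]
  refine (mem_levelCoboundaries₂_iff _ _ _).2
    ⟨inflC₁ M H b₀, isLevelConstant₁_inflC₁ M H b₀, ?_⟩
  have key : inflC₂ M H ((x : ↥H × ↥H → T.resSub (lvlL M) H) -
      (d₁₂ (T.resSub (lvlL M) H)).hom b₀) =
      (c : ↥(UH M H) × ↥(UH M H) → gModOn (UH M H)) -
        (d₁₂ (gModOn (UH M H))).hom (inflC₁ M H b₀) := by
    rw [hc, ← inflC₂_d₁₂]
    exact map_sub (inflC₂ M H) _ _
  show _ = (c : ↥(UH M H) × ↥(UH M H) → gModOn (UH M H)) -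
    inflC₂ M H ((x : ↥H × ↥H → T.resSub (lvlL M) H) - (d₁₂ (T.resSub (lvlL M) H)).hom b₀)
  rw [key, sub_sub_cancel]

variable (q : ℕ) [Fact q.Prime] (g : GQ)

set_option maxHeartbeats 400000 in
theorem inv_locBr_eq_zero_of_ord (I : LocalInvSystem) (hq : (⟨q, Fact.out⟩ : Nat.Primes) ∉ S)
    (x : ↥(cocycles₂ (T.resSub (lvlL M) H)))
    (hx : h2Sub (G.ordRepHom S M.Gal M.F) H (H2π _ x) = 0)
    (c : ↥(levelCocycles₂ (UH M H).subtype (gModOn (UH M H))))
    (hc : (c : ↥(UH M H) × ↥(UH M H) → gModOn (UH M H)) = inflC₂ M H x) :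
    I.inv q (locSub q g (UH M H)) (locBr q g (UH M H) (continuousH2π _ _ c)) = 0 := by
  obtain ⟨β, hβ⟩ := exists_cochain_of_ord_eq_zero M H x hx
  obtain ⟨ϖ, hϖ⟩ := exists_ordAt_eq_one M (placeW q g M)
  obtain ⟨b₀, hb₀⟩ : ∃ b₀ : ↥H → T.resSub (lvlL M) H,
      ∀ h : ↥H, G.ordAt (placeOut q g M hq).1 (b₀ h) = β h (placeOut q g M hq) :=
    ⟨fun h => ((β h (placeOut q g M hq) : ℤ) • (ϖ : T.resSub (lvlL M) H)), fun h => by
      have := map_zsmul (G.ordAt (placeW q g M)) (β h (placeOut q g M hq)) ϖ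
      refine this.trans ?_
      rw [hϖ, smul_eq_mul, mul_one]⟩
  obtain ⟨c', hc', hcc'⟩ := exists_inflC₂_sub_d₁₂ M H x b₀ c hc
  rw [hcc', locBr_mk]
  have hV := H181.isOpenL_locSub q g (isOpenQ_UH M H)
  have hord := fun h₁ h₂ hfix => ordAt_sub_d₁₂ M H x β hβ (placeOut q g M hq) b₀ hb₀ h₁ h₂ hfix
  obtain ⟨x', hx'⟩ : ∃ x' : ↥H × ↥H → T.resSub (lvlL M) H,
      x' = (x : ↥H × ↥H → T.resSub (lvlL M) H) - (d₁₂ (T.resSub (lvlL M) H)).hom b₀ := ⟨_, rfl⟩
  rw [← hx'] at hc' hord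
  have hval : ∀ τ₁ τ₂ : ↥(locSub q g (UH M H)),
      (locCocycles₂ q g (UH M H) c' : ↥(locSub q g (UH M H)) × ↥(locSub q g (UH M H)) →
        lModOn q (locSub q g (UH M H))) (τ₁, τ₂) =
      locPush q g (UH M H) (incl M H
        (x' (toH M H (locHom q g (UH M H) τ₁), toH M H (locHom q g (UH M H) τ₂)))) := by
    intro τ₁ τ₂
    show locPush q g (UH M H) ((c' : ↥(UH M H) × ↥(UH M H) → gModOn (UH M H))
      (locHom q g (UH M H) τ₁, locHom q g (UH M H) τ₂)) = _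
    rw [hc']
    rfl
  apply I.inv_unram q _ hV
  · intro τ₁ τ₂
    rw [hval]
    apply valuation_placeW_eq_one q g M (Units.ne_zero _)
    exact (G.ordAt_eq_zero_iff _ _).1 (hord _ _ (primeSMul_placeW q g M τ₁))
  · intro τ₁ τ₂ i j hi hj
    rw [hval, hval]
    have e1 : locHom q g (UH M H) (τ₁ * i) =
        locHom q g (UH M H) τ₁ * locHom q g (UH M H) i := map_mul _ _ _
    have e2 : locHom q g (UH M H) (τ₂ * j) =
        locHom q g (UH M H) τ₂ * locHom q g (UH M H) j := map_mul _ _ _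
    rw [e1, e2]
    exact congrArg _ (inflC₂_mul_right M H x' _ _ _ _ (conj_loc_mem_U q M hq g hi)
      (conj_loc_mem_U q M hq g hj))
  · intro τ₁ τ₂ i hi
    rw [hval]
    refine (locPush_equivariant q g (UH M H) i _).symm.trans (congrArg _ ?_)
    refine (incl_equivariant M H _ _).symm.trans (congrArg _ ?_)
    rw [toH_eq_one M H (conj_loc_mem_U q M hq g hi)]
    exact congrFun (congrArg DFunLike.coe (map_one (T.resSub (lvlL M) H).ρ)) _


/-- **FR-REC-UNR** (cocycle form).  For `q ∉ S`, the local invariant at any place above `q` of the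
inflation of a finite-level cocycle `x` with `ord_* [x] = 0` vanishes. -/
theorem invAt_eq_zero_of_ord (I : LocalInvSystem) (q : Nat.Primes) (hq : q ∉ S) (g : GQ)
    (x : ↥(cocycles₂ (T.resSub (lvlL M) H)))
    (hx : h2Sub (G.ordRepHom S M.Gal M.F) H (H2π _ x) = 0)
    (c : ↥(levelCocycles₂ (UH M H).subtype (gModOn (UH M H))))
    (hc : (c : ↥(UH M H) × ↥(UH M H) → gModOn (UH M H)) = inflC₂ M H x) :
    I.invAt q g (UH M H) (continuousH2π _ _ c) = 0 :=
  haveI : Fact (q : ℕ).Prime := ⟨q.2⟩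
  inv_locBr_eq_zero_of_ord M H (q : ℕ) g I hq x hx c hc

/-- **FR-REC-UNR** for the canonical inflation `inflZ₂`. -/
theorem invAt_inflZ₂_eq_zero (I : LocalInvSystem) (q : Nat.Primes) (hq : q ∉ S) (g : GQ)
    (x : ↥(cocycles₂ (T.resSub (lvlL M) H)))
    (hx : h2Sub (G.ordRepHom S M.Gal M.F) H (H2π _ x) = 0) :
    I.invAt q g (UH M H) (continuousH2π _ _ (inflZ₂ M H x)) = 0 :=
  invAt_eq_zero_of_ord M H I q hq g x hx (inflZ₂ M H x) rfl

end Main

end Fermat.Agent.S55.G.Rec.TOW.H724
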